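import Fermat.Agent.S16.H346.ThDefs

/-!
# S16 / WP TH, sub-package LAT (helper968, subtask 282)

Exact statements of section `LAT` of helper346's TH sub-skeleton
(`Fermat/Agent/S16/H346/ThSkel.lean` on `origin/helper346`): pure integer matrix algebra for a good
lattice `A` with dual form `B = p A⁻¹`.

All statements are about the definitions in `Fermat.Agent.S16.H346` (`IsGoodLattice`, `qf`,
`latA`, `Disc`, `toDisc`, `qz`, `bz`).
-/

set_option autoImplicit false
set_option linter.unusedSectionVars false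

noncomputable section

namespace Fermat.Agent.S16.H968

open Matrix
open Fermat.Agent.S16.H346

/-! ## General bilinear algebra of `qf` -/

section General

variable {M : Matrix (Fin 4) (Fin 4) ℤ}

theorem dot_mulVec_comm (hM : M.IsSymm) (u v : Fin 4 → ℤ) :
    u ⬝ᵥ M.mulVec v = v ⬝ᵥ M.mulVec u := by
  rw [Matrix.dotProduct_mulVec, ← Matrix.mulVec_transpose, hM.eq, dotProduct_comm]

theorem qf_add (hM : M.IsSymm) (u v : Fin 4 → ℤ) :
    qf M (u + v) = qf M u + 2 * (u ⬝ᵥ M.mulVec v) + qf M v := by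
  unfold qf
  rw [Matrix.mulVec_add, add_dotProduct, dotProduct_add, dotProduct_add,
    dot_mulVec_comm hM v u]
  ring

theorem qf_smul (s : ℤ) (u : Fin 4 → ℤ) : qf M (s • u) = s ^ 2 * qf M u := by
  unfold qf
  rw [Matrix.mulVec_smul, smul_dotProduct, dotProduct_smul, smul_eq_mul, smul_eq_mul]
  ring

/-- A symmetric integer matrix with even diagonal takes even values. -/
theorem even_qf_of_symm_even (hM : M.IsSymm) (hd : ∀ i, Even (M i i)) (x : Fin 4 → ℤ) :
    Even (qf M x) := by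
  obtain ⟨a0, h0⟩ := hd 0
  obtain ⟨a1, h1⟩ := hd 1
  obtain ⟨a2, h2⟩ := hd 2
  obtain ⟨a3, h3⟩ := hd 3
  have s10 : M 1 0 = M 0 1 := hM.apply 0 1
  have s20 : M 2 0 = M 0 2 := hM.apply 0 2
  have s30 : M 3 0 = M 0 3 := hM.apply 0 3
  have s21 : M 2 1 = M 1 2 := hM.apply 1 2
  have s31 : M 3 1 = M 1 3 := hM.apply 1 3
  have s32 : M 3 2 = M 2 3 := hM.apply 2 3
  refine ⟨a0 * x 0 ^ 2 + a1 * x 1 ^ 2 + a2 * x 2 ^ 2 + a3 * x 3 ^ 2 + M 0 1 * x 0 * x 1 +
    M 0 2 * x 0 * x 2 + M 0 3 * x 0 * x 3 + M 1 2 * x 1 * x 2 + M 1 3 * x 1 * x 3 +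
    M 2 3 * x 2 * x 3, ?_⟩
  simp only [qf, dotProduct, mulVec, Fin.sum_univ_four]
  rw [s10, s20, s30, s21, s31, s32, h0, h1, h2, h3]
  ring

end General

/-! ## LAT -/

section LAT

variable {p : ℕ} [Fact p.Prime] {A B : Matrix (Fin 4) (Fin 4) ℤ}

theorem p_ne_zero' : (p : ℤ) ≠ 0 := by
  exact_mod_cast (Fact.out : p.Prime).ne_zero

theorem p_pos' : (0 : ℤ) < p := by
  exact_mod_cast (Fact.out : p.Prime).pos

theorem B_mul_A (hA : IsGoodLattice p A B) : B * A = (p : ℤ) • (1 : Matrix (Fin 4) (Fin 4) ℤ) := by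
  have hp : (p : ℤ) ≠ 0 := p_ne_zero'
  -- adj A = p B
  have h1 : A.det • B = (p : ℤ) • A.adjugate := by
    have := congrArg (fun X => A.adjugate * X) hA.mul_eq
    simp only [← Matrix.mul_assoc, Matrix.adjugate_mul, Matrix.mul_smul, Matrix.mul_one,
      Matrix.smul_mul, Matrix.one_mul] at this
    exact this
  rw [hA.det_eq] at h1
  have h2 : A.adjugate = (p : ℤ) • B := by
    ext i j
    have := congrFun (congrFun h1 i) j
    simp only [Matrix.smul_apply, smul_eq_mul] at this ⊢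
    have h3 : (p : ℤ) * (A.adjugate i j) = (p : ℤ) * ((p : ℤ) * B i j) := by
      rw [← this]; ring
    exact mul_left_cancel₀ hp h3
  have h4 : A.adjugate * A = A.det • (1 : Matrix (Fin 4) (Fin 4) ℤ) := Matrix.adjugate_mul A
  rw [h2, hA.det_eq, Matrix.smul_mul] at h4
  ext i j
  have := congrFun (congrFun h4 i) j
  simp only [Matrix.smul_apply, smul_eq_mul] at this ⊢
  have h5 : (p : ℤ) * ((B * A) i j) = (p : ℤ) * ((p : ℤ) * (1 : Matrix (Fin 4) (Fin 4) ℤ) i j) := by
    rw [this]; ring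
  exact mul_left_cancel₀ hp h5

theorem isSymm_B (hA : IsGoodLattice p A B) : B.IsSymm := by
  have hp : (p : ℤ) ≠ 0 := p_ne_zero'
  -- Bᵀ * A = p
  have h1 : Bᵀ * A = (p : ℤ) • (1 : Matrix (Fin 4) (Fin 4) ℤ) := by
    have := congrArg Matrix.transpose hA.mul_eq
    rw [Matrix.transpose_mul, hA.symm.eq, Matrix.transpose_smul, Matrix.transpose_one] at this
    exact this
  have h2 : (p : ℤ) • Bᵀ = (p : ℤ) • B := by
    calc (p : ℤ) • Bᵀ = Bᵀ * ((p : ℤ) • (1 : Matrix (Fin 4) (Fin 4) ℤ)) := by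
          rw [Matrix.mul_smul, Matrix.mul_one]
      _ = Bᵀ * (A * B) := by rw [hA.mul_eq]
      _ = (Bᵀ * A) * B := by rw [Matrix.mul_assoc]
      _ = (p : ℤ) • B := by rw [h1, Matrix.smul_mul, Matrix.one_mul]
  ext i j
  have := congrFun (congrFun h2 i) j
  simp only [Matrix.smul_apply, smul_eq_mul] at this
  exact mul_left_cancel₀ hp this

theorem A_mulVec_B_mulVec (hA : IsGoodLattice p A B) (y : Fin 4 → ℤ) :
    A.mulVec (B.mulVec y) = (p : ℤ) • y := by
  rw [Matrix.mulVec_mulVec, hA.mul_eq, Matrix.smul_mulVec, Matrix.one_mulVec]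

theorem B_mulVec_A_mulVec (hA : IsGoodLattice p A B) (y : Fin 4 → ℤ) :
    B.mulVec (A.mulVec y) = (p : ℤ) • y := by
  rw [Matrix.mulVec_mulVec, B_mul_A hA, Matrix.smul_mulVec, Matrix.one_mulVec]

theorem even_qf_A (hA : IsGoodLattice p A B) (x : Fin 4 → ℤ) : Even (qf A x) :=
  even_qf_of_symm_even hA.symm hA.even x

theorem even_qf_B (hA : IsGoodLattice p A B) (x : Fin 4 → ℤ) : Even (qf B x) :=
  even_qf_of_symm_even (isSymm_B hA) hA.even' x

theorem qf_cast (A : Matrix (Fin 4) (Fin 4) ℤ) (x : Fin 4 → ℤ) :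
    ((qf A x : ℤ) : ℝ) =
      star (fun i => (x i : ℝ)) ⬝ᵥ ((A.map (Int.cast : ℤ → ℝ)).mulVec (fun i => (x i : ℝ))) := by
  simp only [qf, dotProduct, mulVec, Fin.sum_univ_four, Matrix.map_apply, Pi.star_apply,
    star_trivial]
  push_cast
  ring

theorem qf_pos (hA : IsGoodLattice p A B) (x : Fin 4 → ℤ) (hx : x ≠ 0) : 0 < qf A x := by
  have hx' : (fun i => (x i : ℝ)) ≠ 0 := by
    intro h
    apply hx
    funext i
    have := congrFun h i
    simpa using this
  have := hA.posDef.dotProduct_mulVec_pos hx'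
  rw [← qf_cast] at this
  exact_mod_cast this

theorem qf_nonneg (hA : IsGoodLattice p A B) (x : Fin 4 → ℤ) : 0 ≤ qf A x := by
  by_cases hx : x = 0
  · subst hx
    simp [qf]
  · exact (qf_pos hA x hx).le

/-- coercivity: `p xᵢ² ≤ Bᵢᵢ · xᵀAx`. -/
theorem coercive (hA : IsGoodLattice p A B) (x : Fin 4 → ℤ) (i : Fin 4) :
    (p : ℤ) * x i ^ 2 ≤ B i i * qf A x := by
  have hp : (0 : ℤ) < p := p_pos'
  -- `w` = `i`-th column of `B`
  set w : Fin 4 → ℤ := B.mulVec (Pi.single i 1) with hw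
  have hAw : A.mulVec w = (p : ℤ) • (Pi.single i 1 : Fin 4 → ℤ) := A_mulVec_B_mulVec hA _
  have hwi : w i = B i i := by
    simp [hw]
  have hxw : x ⬝ᵥ A.mulVec w = (p : ℤ) * x i := by
    rw [hAw, dotProduct_smul, dotProduct_single_one, smul_eq_mul]
  have hww : qf A w = (p : ℤ) * B i i := by
    unfold qf
    rw [hAw, dotProduct_smul, dotProduct_single_one, smul_eq_mul, hwi]
  -- Cauchy–Schwarz through `qf A (Q(w) x - c w) ≥ 0`
  have key := qf_nonneg hA (((p : ℤ) * B i i) • x + (-((p : ℤ) * x i)) • w)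
  rw [qf_add hA.symm, qf_smul, qf_smul, Matrix.mulVec_smul, dotProduct_smul, smul_dotProduct,
    hxw, hww] at key
  simp only [smul_eq_mul] at key
  -- key : 0 ≤ (pB)² Q(x) + 2 (pB)(-(p xi))(p xi) + (p xi)² (pB)
  have hB : 0 ≤ B i i := by
    by_contra hneg
    have hneg' : B i i < 0 := not_le.mp hneg
    -- Q(w) = p * B i i ≥ 0
    have := qf_nonneg hA w
    rw [hww] at this
    nlinarith
  rcases hB.eq_or_lt with hB0 | hBpos
  · -- B i i = 0 ⇒ w = 0 ⇒ p e_i = 0, impossible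
    exfalso
    have hw0 : w = 0 := by
      by_contra hne
      have := qf_pos hA w hne
      rw [hww, ← hB0] at this
      simp at this
    have := hAw
    rw [hw0, Matrix.mulVec_zero] at this
    have := congrFun this i
    simp at this
    exact hp.ne this
  · -- divide `key` by `p² B i i > 0`
    have hkey : 0 ≤ ((p : ℤ) ^ 2 * B i i) * (B i i * qf A x - (p : ℤ) * x i ^ 2) :=
      calc (0 : ℤ) ≤ _ := key
        _ = ((p : ℤ) ^ 2 * B i i) * (B i i * qf A x - (p : ℤ) * x i ^ 2) := by ring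
    have hpos : 0 < (p : ℤ) ^ 2 * B i i := by positivity
    have := nonneg_of_mul_nonneg_right hkey hpos
    linarith

/-- the exponent of the theta series with characteristic is `(px + By)ᵀ A (px + By) / p²`. -/
theorem expo_eq (hA : IsGoodLattice p A B) (y x : Fin 4 → ℤ) :
    (p : ℤ) * (p * (qf A x + 2 * (x ⬝ᵥ y)) + qf B y) = qf A ((p : ℤ) • x + B.mulVec y) := by
  rw [qf_add hA.symm, qf_smul, smul_dotProduct, A_mulVec_B_mulVec hA, dotProduct_smul]
  have h1 : qf A (B.mulVec y) = (p : ℤ) * qf B y := by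
    unfold qf
    rw [A_mulVec_B_mulVec hA, dotProduct_smul, smul_eq_mul, dotProduct_comm]
  rw [h1]
  simp only [smul_eq_mul]
  ring

theorem qf_B_add_mulVec (hA : IsGoodLattice p A B) (y u : Fin 4 → ℤ) :
    qf B (y + A.mulVec u) = qf B y + (p : ℤ) * (2 * (u ⬝ᵥ y) + qf A u) := by
  rw [qf_add (isSymm_B hA), B_mulVec_A_mulVec hA, dotProduct_smul]
  have h1 : qf B (A.mulVec u) = (p : ℤ) * qf A u := by
    unfold qf
    rw [B_mulVec_A_mulVec hA, dotProduct_smul, smul_eq_mul, dotProduct_comm]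
  rw [h1, dotProduct_comm y u]
  simp only [smul_eq_mul]
  ring

theorem mem_latA {A : Matrix (Fin 4) (Fin 4) ℤ} {y : Fin 4 → ℤ} :
    y ∈ latA A ↔ ∃ x, A.mulVec x = y := by
  unfold latA
  rw [Submodule.mem_toAddSubgroup, LinearMap.mem_range]
  simp only [Matrix.mulVecLin_apply]

theorem toDisc_eq_iff {A : Matrix (Fin 4) (Fin 4) ℤ} {y r : Fin 4 → ℤ} :
    toDisc A y = toDisc A r ↔ ∃ x, y = r + A.mulVec x := by
  unfold toDisc
  rw [QuotientAddGroup.eq, mem_latA]
  constructor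
  · rintro ⟨x, hx⟩
    refine ⟨-x, ?_⟩
    rw [Matrix.mulVec_neg, hx]
    abel
  · rintro ⟨x, hx⟩
    refine ⟨-x, ?_⟩
    rw [Matrix.mulVec_neg, hx]
    abel

theorem mulVec_injective (hA : IsGoodLattice p A B) : Function.Injective A.mulVec := by
  intro x x' h
  have h1 := congrArg B.mulVec h
  rw [B_mulVec_A_mulVec hA, B_mulVec_A_mulVec hA] at h1
  funext i
  have := congrFun h1 i
  simp only [Pi.smul_apply, smul_eq_mul] at this
  exact mul_left_cancel₀ p_ne_zero' this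

theorem smul_mem_latA (hA : IsGoodLattice p A B) (z : Fin 4 → ℤ) : (p : ℤ) • z ∈ latA A :=
  mem_latA.mpr ⟨B.mulVec z, A_mulVec_B_mulVec hA z⟩

theorem finite_disc (hA : IsGoodLattice p A B) : Finite (Disc A) := by
  let f : (Fin 4 → Fin p) → Disc A := fun v => toDisc A (fun i => ((v i : ℕ) : ℤ))
  have hf : Function.Surjective f := by
    intro d
    obtain ⟨y, rfl⟩ := QuotientAddGroup.mk_surjective d
    have hp : (0 : ℤ) < p := p_pos'
    refine ⟨fun i => ⟨(y i % (p : ℤ)).toNat, ?_⟩, ?_⟩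
    · have h1 : 0 ≤ y i % (p : ℤ) := Int.emod_nonneg _ hp.ne'
      have h2 : y i % (p : ℤ) < p := Int.emod_lt_of_pos _ hp
      omega
    · show toDisc A _ = toDisc A y
      rw [toDisc_eq_iff]
      refine ⟨B.mulVec (fun i => -(y i / (p : ℤ))), ?_⟩
      rw [A_mulVec_B_mulVec hA]
      funext i
      have h1 : 0 ≤ y i % (p : ℤ) := Int.emod_nonneg _ hp.ne'
      simp only [Pi.add_apply, Pi.smul_apply, smul_eq_mul, Int.toNat_of_nonneg h1]
      have := Int.emod_add_mul_ediv (y i) (p : ℤ)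
      linarith
  exact Finite.of_surjective f hf

theorem qz_add (hA : IsGoodLattice p A B) (y w : Fin 4 → ℤ) :
    qz p B (y + w) = qz p B y + bz p B y w + qz p B w := by
  unfold qz bz
  obtain ⟨a, ha⟩ := even_qf_B hA y
  obtain ⟨b, hb⟩ := even_qf_B hA w
  have h := qf_add (isSymm_B hA) y w
  have h1 : qf B (y + w) / 2 = qf B y / 2 + y ⬝ᵥ B.mulVec w + qf B w / 2 := by
    rw [h, ha, hb]
    omega
  rw [h1]
  push_cast
  ring

theorem qz_nsmul (hA : IsGoodLattice p A B) (n : ℕ) (y : Fin 4 → ℤ) :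
    qz p B (n • y) = (n : ZMod p) ^ 2 * qz p B y := by
  unfold qz
  obtain ⟨a, ha⟩ := even_qf_B hA y
  have h : qf B (n • y) = (n : ℤ) ^ 2 * qf B y := by
    rw [← qf_smul]
    congr 1
  have h1 : qf B (n • y) / 2 = (n : ℤ) ^ 2 * (qf B y / 2) := by
    rw [h, ha]
    have : a + a = 2 * a := by ring
    rw [this, ← mul_assoc, mul_comm _ 2, mul_assoc, Int.mul_ediv_cancel_left _ two_ne_zero,
      Int.mul_ediv_cancel_left _ two_ne_zero]
  rw [h1]
  push_cast
  ring

theorem qz_add_mulVec (hA : IsGoodLattice p A B) (y u : Fin 4 → ℤ) :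
    qz p B (y + A.mulVec u) = qz p B y := by
  unfold qz
  obtain ⟨a, ha⟩ := even_qf_B hA y
  obtain ⟨c, hc⟩ := even_qf_A hA u
  have h1 : qf B (y + A.mulVec u) / 2 = qf B y / 2 + (p : ℤ) * (u ⬝ᵥ y + c) := by
    rw [qf_B_add_mulVec hA, ha, hc]
    have : a + a + (p : ℤ) * (2 * (u ⬝ᵥ y) + (c + c)) = 2 * (a + (p : ℤ) * (u ⬝ᵥ y + c)) := by
      ring
    rw [this, Int.mul_ediv_cancel_left _ two_ne_zero]
    have : a + a = 2 * a := by ring
    rw [this, Int.mul_ediv_cancel_left _ two_ne_zero]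
  rw [h1]
  push_cast
  simp

theorem bz_add_left (y y' w : Fin 4 → ℤ) :
    bz p B (y + y') w = bz p B y w + bz p B y' w := by
  unfold bz
  rw [add_dotProduct]
  push_cast
  ring

theorem bz_comm (hA : IsGoodLattice p A B) (y w : Fin 4 → ℤ) : bz p B y w = bz p B w y := by
  unfold bz
  rw [dot_mulVec_comm (isSymm_B hA)]

theorem bz_add_mulVec_left (hA : IsGoodLattice p A B) (y u w : Fin 4 → ℤ) :
    bz p B (y + A.mulVec u) w = bz p B y w := by
  rw [bz_add_left]
  have : bz p B (A.mulVec u) w = 0 := by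
    unfold bz
    rw [dot_mulVec_comm (isSymm_B hA), B_mulVec_A_mulVec hA, dotProduct_smul]
    simp
  rw [this, add_zero]

theorem bz_nondeg (hA : IsGoodLattice p A B) (w : Fin 4 → ℤ) (hw : w ∉ latA A) :
    ∃ y, bz p B y w ≠ 0 := by
  by_contra hcon0
  have hcon : ∀ y, bz p B y w = 0 := fun y => by_contra fun h => hcon0 ⟨y, h⟩
  apply hw
  -- every coordinate of `B w` is divisible by `p`
  have hdiv : ∀ i, (p : ℤ) ∣ B.mulVec w i := by
    intro i
    have := hcon (Pi.single i 1)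
    unfold bz at this
    rw [single_one_dotProduct] at this
    exact (ZMod.intCast_zmod_eq_zero_iff_dvd _ p).mp this
  choose v hv using hdiv
  have hBw : B.mulVec w = (p : ℤ) • v := by
    funext i
    rw [hv i]
    simp
  -- `p w = A (B w) = p (A v)`
  have h1 : (p : ℤ) • w = (p : ℤ) • A.mulVec v := by
    rw [← A_mulVec_B_mulVec hA w, hBw, Matrix.mulVec_smul]
  refine mem_latA.mpr ⟨v, ?_⟩
  funext i
  have := congrFun h1 i
  simp only [Pi.smul_apply, smul_eq_mul] at this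
  exact (mul_left_cancel₀ p_ne_zero' this).symm

end LAT

end Fermat.Agent.S16.H968
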